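/-
S37lib / HeckeInst / Basic  (helper1)

Block (A-instance) of the S37 project: the modular-specific half of `HeckeInputsAlong Q̄ N ℓ`.

For the two `Q̄`-algebra maps of the Prelude
  `heckeAlphaBar Q̄ N ℓ` (inclusion `FBar N ≤ FBar (N ℓ)`)  and
  `heckeBetaBar Q̄ N ℓ`  (`q ↦ q^ℓ`, `FBar N → FBar (N ℓ)`),
and BOTH algebra structures `algebraAlong α`, `algebraAlong β` on `(FBar N, FBar (N ℓ))`:
finite-dimensionality, integrality (`HeckeAlphaBarIntegral`, `HeckeBetaBarIntegral`),
`FiniteAlong`, separability; moreover `HasPrincipalDivisors` and `deg = 1` for all places at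
every level.  The final statement `heckeInputsAlong_of_generic` takes the two generic tower
theorems (`FundamentalIdentity` along `β`, `PushforwardNormFormula` along `α`; block (A-generic))
as explicit hypotheses.

No hypothesis on `ℓ` (prime / coprime to `N`) is needed for this block.
-/
import Mathlib
import Fermat.Prelude.Def_ModularCurve_HeckeOperatorTotal
import Fermat.Agent.ProgramR.BarField.Degree
import Fermat.Agent.ProgramR.FunctionField.Divisor
import Fermat.Agent.ProgramR.FunctionField.AlgClosed

set_option autoImplicit false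
set_option linter.style.haveILetI false
set_option linter.unusedSectionVars false

noncomputable section

namespace Fermat.Agent.S37lib.HeckeInst

open AlgebraicCurve ModularCurve IntermediateField HahnSeries
open Fermat.Agent.ProgramR

/-! ### Generic: a `K`-algebra map between function fields is finite -/

section Generic

variable {K F F' : Type*} [Field K] [Field F] [Field F'] [Algebra K F] [Algebra K F']

/-- if `F'` is finite over `K(x')` and `x' = φ x`, then `F'` is finite over `F` along `φ`. -/
theorem finite_along (φ : F →ₐ[K] F') (x : F) (x' : F') (hx : φ x = x')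
    [FiniteDimensional K⟮x'⟯ F'] :
    letI := algebraAlong φ; Module.Finite F F' := by
  letI := algebraAlong φ
  obtain ⟨s, hs⟩ := (Module.Finite.fg_top (R := K⟮x'⟯) (M := F'))
  have hle : K⟮x'⟯ ≤ φ.fieldRange := by
    rw [IntermediateField.adjoin_le_iff, Set.singleton_subset_iff]
    exact ⟨x, hx⟩
  refine ⟨⟨s, ?_⟩⟩
  rw [eq_top_iff]
  intro y _
  have hy : y ∈ Submodule.span K⟮x'⟯ (s : Set F') := by rw [hs]; trivial
  induction hy using Submodule.span_induction with
  | mem z hz => exact Submodule.subset_span hz
  | zero => exact Submodule.zero_mem _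
  | add a b _ _ ha hb => exact Submodule.add_mem _ (ha trivial) (hb trivial)
  | smul c z _ hz =>
    obtain ⟨d, hd⟩ := hle c.2
    have hcz : c • z = d • z := by
      rw [Algebra.smul_def, Algebra.smul_def]
      congr 1
      exact hd.symm
    rw [hcz]
    exact Submodule.smul_mem _ _ (hz trivial)

/-- integrality of the ring map from finiteness -/
theorem isIntegral_toRingHom_of_finite (φ : F →ₐ[K] F')
    (h : letI := algebraAlong φ; Module.Finite F F') : φ.toRingHom.IsIntegral := by
  letI := algebraAlong φ
  haveI : Module.Finite F F' := h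
  have : Algebra.IsIntegral F F' := Algebra.IsIntegral.of_finite F F'
  exact algebraMap_isIntegral_iff.mpr this

/-- separability along `φ` in characteristic zero -/
theorem isSeparable_along [CharZero F] (φ : F →ₐ[K] F')
    (h : letI := algebraAlong φ; Module.Finite F F') :
    letI := algebraAlong φ; Algebra.IsSeparable F F' := by
  letI := algebraAlong φ
  haveI : Module.Finite F F' := h
  infer_instance

/-- the image of a transcendental element under a `K`-algebra map of fields is transcendental -/
theorem transcendental_map (φ : F →ₐ[K] F') {x : F} (hx : Transcendental K x) :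
    Transcendental K (φ x) := by
  intro h
  exact hx ((isAlgebraic_algHom_iff φ φ.toRingHom.injective).mp h)

end Generic

/-! ### The modular function fields `FBar M` over `Q̄` -/

local notation "Qb" => AlgebraicClosure ℚ

/-- `FBar M` as a type -/
abbrev FB (M : ℕ) : Type := ↥(modularFunctionFieldBar M)

section Level

variable (M : ℕ) [NeZero M]

/-- `j(q)` at level `M` -/
abbrev jB : FB M := BarField.jBar Qb M

theorem coe_jB : ((jB M : FB M) : LaurentSeries Qb) = jqModC Qb := BarField.coe_jBar Qb M

theorem transcendental_jB : Transcendental Qb (jB M) := BarField.transcendental_jBar Qb M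

instance finiteDimensional_jB : FiniteDimensional Qb⟮jB M⟯ (FB M) :=
  BarField.finiteDimensional_jBar_Qbar M

/-- principal divisors exist at every level -/
theorem hasPrincipalDivisors_FB : HasPrincipalDivisors Qb (FB M) :=
  FF.hasPrincipalDivisors (jB M) (transcendental_jB M)

/-- all places of `FBar M` have degree one -/
theorem deg_eq_one (v : Place Qb (FB M)) : v.deg = 1 :=
  FF.deg_eq_one (jB M) v

/-- `FBar M` is finite over `Q̄(f)` for every transcendental `f` -/
theorem finiteDimensional_adjoin {f : FB M} (hf : Transcendental Qb f) :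
    FiniteDimensional Qb⟮f⟯ (FB M) :=
  FF.finiteDimensional_adjoin_of_transcendental (jB M) hf

end Level

/-! ### The two maps `α`, `β` -/

section AlphaBeta

variable (N ℓ : ℕ) [NeZero N] [NeZero ℓ]

/-- `α (j) = j` -/
theorem heckeAlphaBar_jB : heckeAlphaBar Qb N ℓ (jB N) = jB (N * ℓ) := by
  apply Subtype.ext
  rw [coe_heckeAlphaBar, coe_jB, coe_jB]

/-- finiteness along `α` -/
theorem finite_alpha :
    letI := algebraAlong (heckeAlphaBar Qb N ℓ); Module.Finite (FB N) (FB (N * ℓ)) :=
  finite_along (heckeAlphaBar Qb N ℓ) (jB N) (jB (N * ℓ)) (heckeAlphaBar_jB N ℓ)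

/-- finiteness along `β` -/
theorem finite_beta :
    letI := algebraAlong (heckeBetaBar Qb N ℓ); Module.Finite (FB N) (FB (N * ℓ)) := by
  haveI : FiniteDimensional Qb⟮heckeBetaBar Qb N ℓ (jB N)⟯ (FB (N * ℓ)) :=
    finiteDimensional_adjoin (N * ℓ) (transcendental_map _ (transcendental_jB N))
  exact finite_along (heckeBetaBar Qb N ℓ) (jB N) _ rfl

theorem heckeAlphaBarIntegral : HeckeAlphaBarIntegral Qb N ℓ :=
  isIntegral_toRingHom_of_finite _ (finite_alpha N ℓ)

theorem heckeBetaBarIntegral : HeckeBetaBarIntegral Qb N ℓ :=
  isIntegral_toRingHom_of_finite _ (finite_beta N ℓ)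

theorem finiteAlong_alpha : FiniteAlong Qb (heckeAlphaBar Qb N ℓ) := finite_alpha N ℓ

theorem finiteAlong_beta : FiniteAlong Qb (heckeBetaBar Qb N ℓ) := finite_beta N ℓ

theorem isSeparable_alpha :
    letI := algebraAlong (heckeAlphaBar Qb N ℓ); Algebra.IsSeparable (FB N) (FB (N * ℓ)) :=
  isSeparable_along _ (finite_alpha N ℓ)

theorem isSeparable_beta :
    letI := algebraAlong (heckeBetaBar Qb N ℓ); Algebra.IsSeparable (FB N) (FB (N * ℓ)) :=
  isSeparable_along _ (finite_beta N ℓ)

/-- **(A), modulo the two generic tower theorems.** -/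
theorem heckeInputsAlong_of_generic
    (hFI : haveI := hasPrincipalDivisors_FB (N * ℓ);
      FundamentalIdentityAlong Qb (heckeBetaBar Qb N ℓ) (heckeBetaBarIntegral N ℓ))
    (hNF : NormFormulaAlong Qb (heckeAlphaBar Qb N ℓ) (finiteAlong_alpha N ℓ)) :
    HeckeInputsAlong Qb N ℓ :=
  ⟨heckeAlphaBarIntegral N ℓ, heckeBetaBarIntegral N ℓ, hasPrincipalDivisors_FB (N * ℓ),
    finiteAlong_alpha N ℓ, hFI, hNF⟩

end AlphaBeta

end Fermat.Agent.S37lib.HeckeInst
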