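/-
S37lib / HeckeInst / Final  (helper1)

Block (A) of the S37 project, COMPLETE: `HeckeInputsAlong Q̄ N ℓ` for all `N ℓ` (no hypothesis on
`ℓ`), by plugging the generic tower theorems of `S37lib/Tower` (helper6) into
`heckeInputsAlong_of_generic`.
-/
import Mathlib
import Fermat.Agent.S37lib.HeckeInst.Basic
import Fermat.Agent.S37lib.Tower.NormFormula

set_option autoImplicit false
set_option linter.style.haveILetI false
set_option linter.unusedSectionVars false

noncomputable section

namespace Fermat.Agent.S37lib.HeckeInst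

open AlgebraicCurve ModularCurve IntermediateField HahnSeries
open Fermat.Agent.ProgramR

local notation "Qb" => AlgebraicClosure ℚ

variable (N ℓ : ℕ) [NeZero N] [NeZero ℓ]

/-- the fundamental identity `∑ e f = [F' : F]` along `β` -/
theorem fundamentalIdentityAlong_beta :
    haveI := hasPrincipalDivisors_FB (N * ℓ);
    FundamentalIdentityAlong Qb (heckeBetaBar Qb N ℓ) (heckeBetaBarIntegral N ℓ) := by
  haveI := hasPrincipalDivisors_FB (N * ℓ)
  letI := algebraAlong (heckeBetaBar Qb N ℓ)
  haveI := isScalarTower_along (heckeBetaBar Qb N ℓ)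
  haveI : FiniteDimensional (FB N) (FB (N * ℓ)) := finite_beta N ℓ
  haveI : Algebra.IsSeparable (FB N) (FB (N * ℓ)) := isSeparable_beta N ℓ
  exact Tower.fundamentalIdentity (deg_eq_one (N * ℓ))

/-- the fundamental identity along `α` (not needed for `HeckeInputsAlong`, but for the dual
correspondence) -/
theorem fundamentalIdentityAlong_alpha :
    haveI := hasPrincipalDivisors_FB (N * ℓ);
    FundamentalIdentityAlong Qb (heckeAlphaBar Qb N ℓ) (heckeAlphaBarIntegral N ℓ) := by
  haveI := hasPrincipalDivisors_FB (N * ℓ)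
  letI := algebraAlong (heckeAlphaBar Qb N ℓ)
  haveI := isScalarTower_along (heckeAlphaBar Qb N ℓ)
  haveI : FiniteDimensional (FB N) (FB (N * ℓ)) := finite_alpha N ℓ
  haveI : Algebra.IsSeparable (FB N) (FB (N * ℓ)) := isSeparable_alpha N ℓ
  exact Tower.fundamentalIdentity (deg_eq_one (N * ℓ))

/-- the norm formula along `α` -/
theorem normFormulaAlong_alpha :
    NormFormulaAlong Qb (heckeAlphaBar Qb N ℓ) (finiteAlong_alpha N ℓ) := by
  haveI := hasPrincipalDivisors_FB (N * ℓ)
  letI := algebraAlong (heckeAlphaBar Qb N ℓ)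
  haveI := isScalarTower_along (heckeAlphaBar Qb N ℓ)
  haveI : FiniteDimensional (FB N) (FB (N * ℓ)) := finite_alpha N ℓ
  haveI : Algebra.IsSeparable (FB N) (FB (N * ℓ)) := isSeparable_alpha N ℓ
  exact Tower.pushforwardNormFormula (deg_eq_one (N * ℓ))

/-- the norm formula along `β` (for the dual correspondence) -/
theorem normFormulaAlong_beta :
    NormFormulaAlong Qb (heckeBetaBar Qb N ℓ) (finiteAlong_beta N ℓ) := by
  haveI := hasPrincipalDivisors_FB (N * ℓ)
  letI := algebraAlong (heckeBetaBar Qb N ℓ)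
  haveI := isScalarTower_along (heckeBetaBar Qb N ℓ)
  haveI : FiniteDimensional (FB N) (FB (N * ℓ)) := finite_beta N ℓ
  haveI : Algebra.IsSeparable (FB N) (FB (N * ℓ)) := isSeparable_beta N ℓ
  exact Tower.pushforwardNormFormula (deg_eq_one (N * ℓ))

/-- **Block (A).** All inputs of the Hecke correspondence `T_ℓ` on `Pic⁰ (X(N)_{Q̄})`. -/
theorem heckeInputsAlong : HeckeInputsAlong Qb N ℓ :=
  heckeInputsAlong_of_generic N ℓ (fundamentalIdentityAlong_beta N ℓ) (normFormulaAlong_alpha N ℓ)

end Fermat.Agent.S37lib.HeckeInst
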